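import Mathlib.Analysis.SpecificLimits.Normed
import Mathlib.Topology.Algebra.Order.Floor
import Mathlib.Tactic

/-!
# Vijayaraghavan's theorem

If `λ q ^ n` had finitely many limit points modulo one, its fractional parts would eventually
coincide with them, so `λ` would be rational, and the denominators of `q ^ n` forbid this.
-/

set_option autoImplicit false

noncomputable section

open Filter Topology

namespace FA.RationalPowers

/-- **Vijayaraghavan's theorem.** -/
theorem infinite_limitPoints {q : ℚ} (hq : 1 < q) (hden : q.den ≠ 1) {lam : ℝ} (hlam : lam ≠ 0) :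
    {z : ℝ | MapClusterPt z atTop fun n : ℕ => Int.fract (lam * (q : ℝ) ^ n)}.Infinite := by
  intro hfin
  set a : ℤ := q.num with ha
  set b : ℕ := q.den with hb
  have hb2 : 2 ≤ b := by have := q.den_pos; omega
  have hab : (q : ℝ) * b = a := by exact_mod_cast q.mul_den_eq_num
  have hq' : (1 : ℝ) < q := by exact_mod_cast hq
  set f : ℕ → ℝ := fun n => Int.fract (lam * (q : ℝ) ^ n) with hf
  set L := {z : ℝ | MapClusterPt z atTop f} with hL
  -- eventually the fractional parts are near the limit points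
  have hnear : ∀ η : ℝ, 0 < η → ∀ᶠ n in atTop, ∃ z ∈ L, |f n - z| < η := by
    intro η hη
    by_contra hne
    rw [not_eventually] at hne
    have : (atTop ⊓ 𝓟 {n | ¬∃ z ∈ L, |f n - z| < η}).NeBot := frequently_mem_iff_neBot.1 hne
    obtain ⟨z, -, hz⟩ := (isCompact_Icc (a := (0 : ℝ)) (b := 1)).exists_mapClusterPt
      (u := f) (f := atTop ⊓ 𝓟 {n | ¬∃ z ∈ L, |f n - z| < η})
      (tendsto_principal.2 (Eventually.of_forall fun n =>
        ⟨Int.fract_nonneg _, (Int.fract_lt_one _).le⟩))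
    have h1 : ∃ᶠ n in atTop ⊓ 𝓟 {n | ¬∃ z ∈ L, |f n - z| < η}, |f n - z| < η := by
      have := hz.frequently (Metric.ball_mem_nhds z hη)
      simpa [Metric.mem_ball, Real.dist_eq] using this
    rw [frequently_inf_principal] at h1
    obtain ⟨n, hn, hn'⟩ := h1.exists
    exact hn ⟨z, hz.mono inf_le_left, hn'⟩
  -- the nearest limit point
  have hLne : L.Nonempty := by
    obtain ⟨n, z, hz, -⟩ := (hnear 1 one_pos).exists
    exact ⟨z, hz⟩
  choose l hlL hlmin using fun n => hfin.exists_minimalFor (fun z => |f n - z|) L hLne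
  set e : ℕ → ℝ := fun n => f n - l n with he
  have he0 : Tendsto e atTop (𝓝 0) := by
    rw [Metric.tendsto_nhds]
    intro η hη
    filter_upwards [hnear η hη] with n ⟨z, hz, hzn⟩
    rw [Real.dist_eq, sub_zero]
    refine lt_of_le_of_lt ?_ hzn
    rcases le_total (|f n - l n|) (|f n - z|) with h | h
    · exact h
    · exact hlmin n hz h
  -- the errors are eventually multiplied by `q`
  set r : ℕ → ℤ := fun n => b * ⌊lam * (q : ℝ) ^ (n + 1)⌋ - a * ⌊lam * (q : ℝ) ^ n⌋ with hr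
  have hrf : ∀ n, (r n : ℝ) = a * f n - b * f (n + 1) := fun n => by
    have h1 := Int.fract_add_floor (lam * (q : ℝ) ^ n)
    have h2 := Int.fract_add_floor (lam * (q : ℝ) ^ (n + 1))
    simp only [hr, hf]
    push_cast
    rw [pow_succ] at h2 ⊢
    linear_combination (b : ℝ) * h2 - (a : ℝ) * h1 + lam * (q : ℝ) ^ n * hab
  have hc : ∀ᶠ n in atTop, (r n : ℝ) = a * l n - b * l (n + 1) := by
    have hdiff : Tendsto (fun n => (r n : ℝ) - (a * l n - b * l (n + 1))) atTop (𝓝 0) := by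
      have := (he0.const_mul (a : ℝ)).sub (((tendsto_add_atTop_iff_nat 1).2 he0).const_mul (b : ℝ))
      simp only [mul_zero, sub_zero] at this
      exact this.congr fun n => by rw [hrf]; simp only [he]; ring
    have hV : (Set.image2 (fun x y => (a : ℝ) * x - b * y) L L).Finite := hfin.image2 _ hfin
    have key : ∀ v : ℝ, ∀ᶠ n in atTop, a * l n - b * l (n + 1) = v → (r n : ℝ) = v := by
      intro v
      by_cases hv : ∃ k : ℤ, (k : ℝ) = v
      · obtain ⟨k, rfl⟩ := hv
        filter_upwards [Metric.tendsto_nhds.1 hdiff 1 one_pos] with n hn hnv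
        rw [Real.dist_eq, sub_zero, hnv] at hn
        rw [sub_eq_zero.1 (Int.abs_lt_one_iff.1 (by exact_mod_cast hn : |r n - k| < 1))]
      · have hpos : 0 < |v - round v| := abs_pos.2 (sub_ne_zero.2 fun h => hv ⟨_, h.symm⟩)
        filter_upwards [Metric.tendsto_nhds.1 hdiff _ hpos] with n hn hnv
        rw [Real.dist_eq, sub_zero, hnv, abs_sub_comm] at hn
        exact absurd hn (not_lt.2 (round_le v (r n)))
    filter_upwards [(hV.eventually_all).2 fun v _ => key v] with n hn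
    exact hn _ (Set.mem_image2_of_mem (hlL n) (hlL (n + 1))) rfl
  obtain ⟨N, hN⟩ := eventually_atTop.1 hc
  have hb0 : (b : ℝ) ≠ 0 := by positivity
  have hstep : ∀ n, N ≤ n → e (n + 1) = q * e n := fun n hn => by
    have h1 := hN n hn
    rw [hrf] at h1
    refine mul_left_cancel₀ hb0 ?_
    simp only [he]
    linear_combination -h1 - (f n - l n) * hab
  have hfl : ∀ n, N ≤ n → f n = l n := by
    intro n hn
    have hgeo : ∀ k, e (n + k) = (q : ℝ) ^ k * e n := fun k => by
      induction k with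
      | zero => simp
      | succ k ih => rw [← add_assoc, hstep _ (le_add_right hn), ih, pow_succ']; ring
    have hlim : Tendsto (fun k => |e (n + k)|) atTop (𝓝 0) :=
      ((tendsto_zero_iff_abs_tendsto_zero _).1 he0).comp
        (tendsto_atTop_mono (fun k => Nat.le_add_left k n) tendsto_id)
    have h0 : |e n| ≤ 0 := ge_of_tendsto' hlim fun k => by
      rw [hgeo, abs_mul]
      exact le_mul_of_one_le_left (abs_nonneg _)
        ((one_le_pow₀ hq'.le).trans (le_abs_self _))
    exact sub_eq_zero.1 (abs_nonpos_iff.1 h0)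
  -- some value is taken infinitely often
  obtain ⟨z, hzL, hz⟩ : ∃ z ∈ L, {n | N ≤ n ∧ f n = z}.Infinite := by
    by_contra hall
    push Not at hall
    refine Set.Ici_infinite N ((hfin.biUnion hall).subset fun n hn => ?_)
    exact Set.mem_biUnion (hfl n hn ▸ hlL n : f n ∈ L) ⟨hn, rfl⟩
  obtain ⟨n, -, hn⟩ := hz.nonempty
  obtain ⟨n', ⟨-, hn'⟩, hlt⟩ := hz.exists_gt n
  -- `λ` is rational
  obtain ⟨c, hcval⟩ : ∃ c : ℚ, (c : ℝ) = lam := by
    refine ⟨((⌊lam * (q : ℝ) ^ n'⌋ - ⌊lam * (q : ℝ) ^ n⌋ : ℤ) : ℚ) / (q ^ n' - q ^ n), ?_⟩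
    have hne : (q : ℝ) ^ n' - (q : ℝ) ^ n ≠ 0 :=
      (sub_pos.2 (pow_lt_pow_right₀ hq' hlt)).ne'
    have h1 := Int.fract_add_floor (lam * (q : ℝ) ^ n)
    have h2 := Int.fract_add_floor (lam * (q : ℝ) ^ n')
    simp only [hf] at hn hn'
    push_cast
    rw [div_eq_iff hne]
    linear_combination h2 - h1 + hn - hn'
  have hc0 : c.num ≠ 0 := fun h => by
    rw [Rat.num_eq_zero] at h
    exact hlam (by rw [← hcval, h, Rat.cast_zero])
  -- the denominators grow
  obtain ⟨m, ⟨-, hm⟩, hmbig⟩ := hz.exists_gt (n + (c.num * b ^ n).natAbs)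
  have hcv : (c : ℝ) * c.den = c.num := by exact_mod_cast c.mul_den_eq_num
  have hqn : ∀ j : ℕ, (q : ℝ) ^ j * (b : ℝ) ^ j = (a : ℝ) ^ j := fun j => by
    rw [← mul_pow, hab]
  -- `b ^ n v λ q ^ m` is an integer
  set u : ℤ := c.num * a ^ n - c.den * (b : ℤ) ^ n * ⌊lam * (q : ℝ) ^ n⌋ +
    c.den * (b : ℤ) ^ n * ⌊lam * (q : ℝ) ^ m⌋ with hu
  have hint : c.num * a ^ m * (b : ℤ) ^ n = u * (b : ℤ) ^ m := by
    have h1 := Int.fract_add_floor (lam * (q : ℝ) ^ n)
    have h2 := Int.fract_add_floor (lam * (q : ℝ) ^ m)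
    simp only [hf] at hn hm
    have hkey : ((c.num * a ^ m * (b : ℤ) ^ n : ℤ) : ℝ) = ((u * (b : ℤ) ^ m : ℤ) : ℝ) := by
      rw [hu]
      push_cast
      have hu' : (c.den : ℝ) * (b : ℝ) ^ n * (lam * (q : ℝ) ^ n) = c.num * (a : ℝ) ^ n := by
        rw [← hcval, ← hqn, ← hcv]; ring
      have hm' : (c.den : ℝ) * (b : ℝ) ^ m * (lam * (q : ℝ) ^ m) = c.num * (a : ℝ) ^ m := by
        rw [← hcval, ← hqn, ← hcv]; ring
      linear_combination -(b : ℝ) ^ n * hm' + (b : ℝ) ^ m * hu' +
        (c.den : ℝ) * (b : ℝ) ^ n * (b : ℝ) ^ m * (h1 - h2 + hm - hn)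
    exact_mod_cast hkey
  have hcop : IsCoprime ((b : ℤ) ^ m) (a ^ m) := (Int.isCoprime_iff_gcd_eq_one.2 (by
    rw [Int.gcd, Int.natAbs_natCast]
    exact q.reduced.symm)).pow
  have hdvd : (b : ℤ) ^ m ∣ c.num * (b : ℤ) ^ n := hcop.dvd_of_dvd_mul_right
    ⟨u, by linear_combination hint⟩
  have hle := Nat.le_of_dvd (Int.natAbs_pos.2 (mul_ne_zero hc0 (pow_ne_zero _ (by omega))))
    (Int.natAbs_dvd_natAbs.2 hdvd)
  rw [Int.natAbs_pow, Int.natAbs_natCast] at hle
  have h2 : m < b ^ m := Nat.lt_pow_self hb2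
  omega

end FA.RationalPowers

end
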