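import Mathlib.Analysis.SpecialFunctions.Pow.Real
import Mathlib.Analysis.SpecificLimits.Basic
import Mathlib.Data.Nat.Fib.Basic
import Mathlib.Tactic

/-!
# Mahler's Z-numbers

The integer parts `g` of `ξ (3 / 2) ^ n` follow `g ↦ ⌊(3 g + 1) / 2⌋` and two of them in succession
are never both odd.
-/

set_option autoImplicit false

noncomputable section

open Finset

namespace FA.RationalPowers

/-- The map of the integer parts. -/
def zStep (g : ℤ) : ℤ := (3 * g + 1) / 2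

/-- A Z-number: all `ξ (3 / 2) ^ n` have fractional part below one half. -/
def IsZNumber (ξ : ℝ) : Prop := ∀ n : ℕ, Int.fract (ξ * (3 / 2) ^ n) < 1 / 2

theorem floor_step {x : ℝ} (hx : Int.fract x < 1 / 2) (hx' : Int.fract (x * (3 / 2)) < 1 / 2) :
    ⌊x * (3 / 2)⌋ = zStep ⌊x⌋ ∧ (⌊x⌋ % 2 = 1 → 1 / 3 ≤ Int.fract x ∧
      Int.fract (x * (3 / 2)) < 1 / 4) := by
  set g := ⌊x⌋ with hg
  set f := Int.fract x with hf
  have hxe : x = g + f := (Int.floor_add_fract x).symm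
  have hf0 : 0 ≤ f := Int.fract_nonneg x
  rcases Int.emod_two_eq_zero_or_one g with h | h
  · refine ⟨?_, fun h1 => absurd h1 (by omega)⟩
    obtain ⟨s, hs⟩ : ∃ s, g = 2 * s := ⟨g / 2, by omega⟩
    rw [zStep, show (3 * g + 1) / 2 = 3 * s by omega, Int.floor_eq_iff, hxe, hs]
    push_cast
    constructor <;> linarith
  · obtain ⟨s, hs⟩ : ∃ s, g = 2 * s + 1 := ⟨g / 2, by omega⟩
    have hf3 : 1 / 3 ≤ f := by
      by_contra hlt
      push Not at hlt
      have e : ⌊x * (3 / 2)⌋ = 3 * s + 1 := by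
        rw [Int.floor_eq_iff, hxe, hs]
        push_cast
        constructor <;> linarith
      rw [Int.fract, e, hxe, hs] at hx'
      push_cast at hx'
      linarith
    have e : ⌊x * (3 / 2)⌋ = 3 * s + 2 := by
      rw [Int.floor_eq_iff, hxe, hs]
      push_cast
      constructor <;> linarith
    refine ⟨by rw [e, zStep]; omega, fun _ => ⟨hf3, ?_⟩⟩
    rw [Int.fract, e, hxe, hs]
    push_cast
    linarith

theorem floor_iterate {ξ : ℝ} (h : IsZNumber ξ) (n : ℕ) :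
    ⌊ξ * (3 / 2) ^ n⌋ = zStep^[n] ⌊ξ⌋ := by
  induction n with
  | zero => simp
  | succ n ih =>
    have h1 := h (n + 1)
    rw [pow_succ, ← mul_assoc] at h1 ⊢
    rw [(floor_step (h n) h1).1, ih, Function.iterate_succ_apply']

/-- **At most one Z-number in each unit interval.** -/
theorem znumber_unique {ξ η : ℝ} (hξ : IsZNumber ξ) (hη : IsZNumber η) (h : ⌊ξ⌋ = ⌊η⌋) :
    ξ = η := by
  have hb : ∀ n : ℕ, |ξ - η| * (3 / 2) ^ n < 1 := fun n => by
    have e : ⌊ξ * (3 / 2) ^ n⌋ = ⌊η * (3 / 2) ^ n⌋ := by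
      rw [floor_iterate hξ, floor_iterate hη, h]
    rw [← abs_of_nonneg (by positivity : (0 : ℝ) ≤ (3 / 2) ^ n), ← abs_mul, sub_mul]
    exact Int.abs_sub_lt_one_of_floor_eq_floor e
  by_contra hne
  have hpos : 0 < |ξ - η| := abs_pos.2 (sub_ne_zero.2 hne)
  obtain ⟨n, hn⟩ := pow_unbounded_of_one_lt (1 / |ξ - η|) (by norm_num : (1 : ℝ) < 3 / 2)
  rw [div_lt_iff₀ hpos, mul_comm] at hn
  exact absurd (hb n) (not_lt.2 hn.le)

theorem no_two_odd {ξ : ℝ} (h : IsZNumber ξ) (n : ℕ) :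
    ¬(zStep^[n] ⌊ξ⌋ % 2 = 1 ∧ zStep^[n + 1] ⌊ξ⌋ % 2 = 1) := by
  rw [← floor_iterate h, ← floor_iterate h]
  rintro ⟨h0, h1⟩
  have s0 := h (n + 1)
  have s1 := h (n + 2)
  rw [pow_succ _ (n + 1), ← mul_assoc] at s1
  have a1 := ((floor_step (h (n + 1)) s1).2 h1).1
  rw [pow_succ, ← mul_assoc] at s0 a1
  have a0 := ((floor_step (h n) s0).2 h0).2
  linarith

theorem zStep_iterate_add : ∀ (n : ℕ) (m r : ℤ),
    zStep^[n] (2 ^ n * m + r) = 3 ^ n * m + zStep^[n] r := by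
  intro n
  induction n with
  | zero => simp
  | succ n ih =>
    intro m r
    rw [Function.iterate_succ_apply', Function.iterate_succ_apply', pow_succ, mul_assoc, ih,
      zStep, zStep, pow_succ,
      show 3 * (3 ^ n * (2 * m) + zStep^[n] r) + 1 =
        3 * zStep^[n] r + 1 + 2 * (3 ^ n * 3 * m) by ring,
      Int.add_mul_ediv_left _ _ two_ne_zero, add_comm]

open scoped Classical in
/-- The residues `r < 2 ^ n` without two successive odd parities. -/
def admissible (n : ℕ) : Finset ℕ :=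
  (range (2 ^ n)).filter fun r : ℕ => ∀ i ∈ range (n - 1),
    ¬(zStep^[i] (r : ℤ) % 2 = 1 ∧ zStep^[i + 1] (r : ℤ) % 2 = 1)

theorem mem_admissible {n r : ℕ} : r ∈ admissible n ↔ r < 2 ^ n ∧ ∀ i, i < n - 1 →
    ¬(zStep^[i] (r : ℤ) % 2 = 1 ∧ zStep^[i + 1] (r : ℤ) % 2 = 1) := by
  simp [admissible]

theorem admissible_subset (n : ℕ) : admissible n ⊆ range (2 ^ n) := fun _ h =>
  mem_range.2 (mem_admissible.1 h).1

theorem parity_mod {n i : ℕ} (hi : i < n) (g : ℕ) :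
    zStep^[i] ((g % 2 ^ n : ℕ) : ℤ) % 2 = zStep^[i] (g : ℤ) % 2 := by
  obtain ⟨d, rfl⟩ : ∃ d, n = i + (d + 1) := ⟨n - i - 1, by omega⟩
  have e : (g : ℤ) = 2 ^ i * (2 ^ (d + 1) * ((g / 2 ^ (i + (d + 1)) : ℕ) : ℤ)) +
      ((g % 2 ^ (i + (d + 1)) : ℕ) : ℤ) := by
    rw [← mul_assoc, ← pow_add]
    exact_mod_cast (Nat.div_add_mod g (2 ^ (i + (d + 1)))).symm
  conv_rhs => rw [e, zStep_iterate_add, pow_succ' 2 d, mul_assoc, mul_left_comm (3 ^ i) 2,
    Int.add_emod, Int.mul_emod_right, zero_add, Int.emod_emod]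

theorem eq_of_parity {n : ℕ} {g h : ℕ} (hgh : g % 2 ^ n = h % 2 ^ n)
    (hp : zStep^[n] (g : ℤ) % 2 = zStep^[n] (h : ℤ) % 2) :
    g % 2 ^ (n + 1) = h % 2 ^ (n + 1) := by
  have e : ∀ g : ℕ, zStep^[n] (g : ℤ) % 2 =
      (((g / 2 ^ n : ℕ) : ℤ) + zStep^[n] ((g % 2 ^ n : ℕ) : ℤ)) % 2 := fun g => by
    have hg : (g : ℤ) = 2 ^ n * ((g / 2 ^ n : ℕ) : ℤ) + ((g % 2 ^ n : ℕ) : ℤ) := by
      exact_mod_cast (Nat.div_add_mod g (2 ^ n)).symm
    conv_lhs => rw [hg, zStep_iterate_add, Int.add_emod, Int.mul_emod]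
    have h3 : (3 : ℤ) ^ n % 2 = 1 := Int.odd_iff.1 ((by decide : Odd (3 : ℤ)).pow)
    rw [h3, one_mul, Int.emod_emod, ← Int.add_emod]
  rw [e g, e h, hgh] at hp
  rw [pow_succ, Nat.mod_mul, Nat.mod_mul, hgh]
  congr 2
  omega

theorem card_admissible_le : ∀ n, #(admissible n) ≤ Nat.fib (n + 2) := by
  intro n
  induction n using Nat.twoStepInduction with
  | zero => exact (card_le_card (admissible_subset _)).trans (by simp)
  | one => exact (card_le_card (admissible_subset _)).trans (by simp [Nat.fib_add_two])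
  | more n ih1 ih2 =>
    set p : ℕ → Prop := fun r => zStep^[n + 1] (r : ℤ) % 2 = 1 with hp
    classical
    rw [Nat.fib_add_two (n := n + 2), ← card_filter_add_card_filter_not (s := admissible (n + 2)) p]
    refine add_le_add (le_trans ?_ ih1) (le_trans ?_ ih2)
    · refine card_le_card_of_injOn (fun r => r % 2 ^ n) (fun r hr => ?_) fun r hr r' hr' he => ?_
      · obtain ⟨hr1, -⟩ := mem_filter.1 hr
        obtain ⟨-, hr2⟩ := mem_admissible.1 hr1
        refine mem_admissible.2 ⟨Nat.mod_lt _ (by positivity), fun i hi => ?_⟩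
        rw [parity_mod (by omega) r, parity_mod (by omega) r]
        exact hr2 i (by omega)
      · obtain ⟨hr1, hr3⟩ := mem_filter.1 hr
        obtain ⟨hr4, hr2⟩ := mem_admissible.1 hr1
        obtain ⟨hs1, hs3⟩ := mem_filter.1 hr'
        obtain ⟨hs4, hs2⟩ := mem_admissible.1 hs1
        have hev : zStep^[n] (r : ℤ) % 2 = 0 := by
          have := hr2 n (by omega)
          simp only [hp] at hr3
          omega
        have hev' : zStep^[n] (r' : ℤ) % 2 = 0 := by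
          have := hs2 n (by omega)
          simp only [hp] at hs3
          omega
        have h2 := eq_of_parity (eq_of_parity he (hev.trans hev'.symm)) (hr3.trans hs3.symm)
        rwa [Nat.mod_eq_of_lt hr4, Nat.mod_eq_of_lt hs4] at h2
    · refine card_le_card_of_injOn (fun r => r % 2 ^ (n + 1)) (fun r hr => ?_)
        fun r hr r' hr' he => ?_
      · obtain ⟨hr1, -⟩ := mem_filter.1 hr
        obtain ⟨-, hr2⟩ := mem_admissible.1 hr1
        refine mem_admissible.2 ⟨Nat.mod_lt _ (by positivity), fun i hi => ?_⟩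
        rw [parity_mod (by omega) r, parity_mod (by omega) r]
        exact hr2 i (by omega)
      · obtain ⟨hr1, hr3⟩ := mem_filter.1 hr
        obtain ⟨hr4, -⟩ := mem_admissible.1 hr1
        obtain ⟨hs1, hs3⟩ := mem_filter.1 hr'
        obtain ⟨hs4, -⟩ := mem_admissible.1 hs1
        simp only [hp] at hr3 hs3
        have h2 := eq_of_parity he
          (by omega : zStep^[n + 1] (r : ℤ) % 2 = zStep^[n + 1] (r' : ℤ) % 2)
        rwa [Nat.mod_eq_of_lt hr4, Nat.mod_eq_of_lt hs4] at h2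

theorem fib_le (n : ℕ) : (Nat.fib (n + 2) : ℝ) ≤ 2 * (81 / 50) ^ n := by
  induction n using Nat.twoStepInduction with
  | zero => norm_num [Nat.fib_add_two]
  | one => norm_num [Nat.fib_add_two]
  | more n ih1 ih2 =>
    rw [Nat.fib_add_two (n := n + 2)]
    push_cast
    have h : (0 : ℝ) ≤ (81 / 50) ^ n := by positivity
    rw [pow_succ] at ih2 ⊢
    rw [pow_succ]
    linarith

/-- **The count of Z-numbers.** -/
theorem znumber_count :
    ∃ C : ℝ, ∀ x : ℝ, 1 ≤ x → {ξ : ℝ | IsZNumber ξ ∧ 0 < ξ ∧ ξ ≤ x}.Finite ∧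
      (({ξ : ℝ | IsZNumber ξ ∧ 0 < ξ ∧ ξ ≤ x}.ncard : ℕ) : ℝ) ≤ C * x ^ (7 / 10 : ℝ) := by
  refine ⟨4, fun x hx => ?_⟩
  set S := {ξ : ℝ | IsZNumber ξ ∧ 0 < ξ ∧ ξ ≤ x} with hS
  set n := Nat.log 2 ⌊x⌋₊ + 1 with hn
  have hmaps : ∀ ξ ∈ S, (⌊ξ⌋).toNat ∈ (admissible n : Set ℕ) := fun ξ ⟨hz, h0, hle⟩ => by
    have hfl : 0 ≤ ⌊ξ⌋ := Int.floor_nonneg.2 h0.le
    refine mem_coe.2 (mem_admissible.2 ⟨?_, fun i _ => ?_⟩)
    · refine lt_of_le_of_lt ?_ (Nat.lt_pow_succ_log_self one_lt_two ⌊x⌋₊)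
      rw [← Int.floor_toNat]
      exact Nat.floor_le_floor hle
    · rw [Int.toNat_of_nonneg hfl]
      exact no_two_odd hz i
  have hinj : Set.InjOn (fun ξ : ℝ => (⌊ξ⌋).toNat) S := fun ξ hξ η hη he => by
    refine znumber_unique hξ.1 hη.1 ?_
    have h1 := Int.floor_nonneg.2 hξ.2.1.le
    have h2 := Int.floor_nonneg.2 hη.2.1.le
    simp only at he
    omega
  have hfin : S.Finite :=
    Set.Finite.of_finite_image ((admissible n).finite_toSet.subset
      (Set.image_subset_iff.2 hmaps)) hinj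
  refine ⟨hfin, ?_⟩
  have hcard : S.ncard ≤ #(admissible n) := by
    rw [← hinj.ncard_image, ← Set.ncard_coe_finset]
    exact Set.ncard_le_ncard (Set.image_subset_iff.2 hmaps) (admissible n).finite_toSet
  set L := Nat.log 2 ⌊x⌋₊ with hL
  have h81 : (81 / 50 : ℝ) ≤ (2 : ℝ) ^ (7 / 10 : ℝ) := by
    rw [show (81 / 50 : ℝ) = ((81 / 50 : ℝ) ^ (10 : ℕ)) ^ ((10 : ℕ) : ℝ)⁻¹ from
        (Real.pow_rpow_inv_natCast (by norm_num) (by norm_num)).symm,
      show (2 : ℝ) ^ (7 / 10 : ℝ) = ((2 : ℝ) ^ (7 : ℕ)) ^ ((10 : ℕ) : ℝ)⁻¹ by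
        rw [← Real.rpow_natCast, ← Real.rpow_mul (by norm_num)]
        norm_num]
    exact Real.rpow_le_rpow (by positivity) (by norm_num) (by norm_num)
  have hpow : (2 : ℝ) ^ L ≤ x := by
    refine le_trans ?_ (Nat.floor_le (by linarith : 0 ≤ x))
    exact_mod_cast Nat.pow_log_le_self 2 (Nat.floor_pos.2 hx).ne'
  calc (S.ncard : ℝ) ≤ (Nat.fib (n + 2) : ℝ) := by
        exact_mod_cast hcard.trans (card_admissible_le n)
    _ ≤ 2 * (81 / 50) ^ n := fib_le n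
    _ ≤ 4 * (81 / 50) ^ L := by
        rw [hn, pow_succ]
        nlinarith [pow_nonneg (by norm_num : (0 : ℝ) ≤ 81 / 50) L]
    _ ≤ 4 * ((2 : ℝ) ^ (7 / 10 : ℝ)) ^ L := by gcongr
    _ = 4 * ((2 : ℝ) ^ L) ^ (7 / 10 : ℝ) := by
        rw [← Real.rpow_natCast, ← Real.rpow_mul (by norm_num), ← Real.rpow_natCast,
          ← Real.rpow_mul (by norm_num), mul_comm (7 / 10 : ℝ)]
    _ ≤ 4 * x ^ (7 / 10 : ℝ) := by gcongr

end FA.RationalPowers

end
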